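import Fermat.Agent.BadPrime.Mazur.Local.Divisible

/-!
# LT2 P8: the classes of the two normalised residues

For `x` of slope zero and a fixed Kummer function `f`, `12` times the divisors of the normalised
residues are divisible by `n`; the quotient classes are additive in `x`, and vanish only on `IsRed`.

Owner: helper53.
-/

set_option autoImplicit false
set_option linter.unusedSectionVars false

noncomputable section

namespace Fermat.Agent.TwoAdic.Removal.Residual

open AlgebraicCurve Fermat.Agent.Curve IsLocalRing Fermat.Agent.LevelP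
open Fermat.Agent.LevelP.TwoCompData Fermat.Agent.BadPrime Fermat.Agent.BadPrime.Mazur.Local

local notation "Qb" => AlgebraicClosure ℚ

variable {q : ℕ} {A : ValuationSubring Qb} {F : Type*} [Field F] [Algebra Qb F]
  [IsFunctionField1 Qb F] {Fb : Type*} [Field Fb] [Algebra (ResidueField A) Fb]
  [IsFunctionField1 (ResidueField A) Fb] [IsAlgClosed (ResidueField A)]
  (T : TwoCompData q A F Fb) (L : Level q A)

/-- A residual divisor of `f`. -/
def IsResDiv (n : ℕ) (i : Bool) (f : F)
    (D : Divisor.degZero (K := ResidueField A) (F := Fb)) : Prop :=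
  ∀ Q, (n : ℤ) * (D : Divisor (ResidueField A) Fb) Q = 12 * Q.ord (normRes T L i f)

variable {T L} {n : ℕ}

theorem IsResDiv.add {i : Bool} {f g : F} (hf : f ≠ 0) (hff : T.Fixed L.H f) (hg : g ≠ 0)
    (hgf : T.Fixed L.H g) {D E : Divisor.degZero (K := ResidueField A) (F := Fb)}
    (hD : IsResDiv T L n i f D) (hE : IsResDiv T L n i g E) :
    IsResDiv T L n i (f * g) (D + E) := fun Q => by
  rw [AddSubgroup.coe_add, Finsupp.add_apply, mul_add, hD Q, hE Q,
    normRes_mul' hf hff hg hgf i,
    Q.ord_mul (normRes_ne_zero' hf hff i) (normRes_ne_zero' hg hgf i), mul_add]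

/-- The residual class does not depend on the Kummer function. -/
theorem IsResDiv.mk_eq (hn : n ≠ 0) {x : Pic0 Qb F} {f g : F} (hf : Kummer T L n x f)
    (hg : Kummer T L n x g) {i : Bool} {D E : Divisor.degZero (K := ResidueField A) (F := Fb)}
    (hD : IsResDiv T L n i f D) (hE : IsResDiv T L n i g E) :
    Pic0.mk E = Pic0.mk D := by
  obtain ⟨c, u, hc, hcfix, hu, hufix, rfl⟩ := hf.unique hn hg
  obtain ⟨d, hd0, hd⟩ := exists_normRes_const (T := T) hc hcfix i
  have h1 : algebraMap Qb F c ≠ 0 := (map_ne_zero _).2 hc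
  have h2 := T.fixed_algebraMap (H := L.H) hcfix
  have hu' := normRes_ne_zero' hu hufix i
  have hf' := normRes_ne_zero' hf.ne_zero hf.fixed i
  have hres : normRes T L i (algebraMap Qb F c * u ^ n * f) =
      algebraMap (ResidueField A) Fb d * normRes T L i u ^ n * normRes T L i f := by
    rw [normRes_mul' (mul_ne_zero h1 (pow_ne_zero n hu)) (fixed_mul h2 (fixed_pow hufix n))
      hf.ne_zero hf.fixed, normRes_mul' h1 h2 (pow_ne_zero n hu) (fixed_pow hufix n),
      normRes_pow' hu hufix, hd]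
  rw [← sub_eq_zero, ← pic0Mk_sub]
  refine (pic0Mk_eq_zero_iff _).2 ⟨normRes T L i u ^ 12, pow_ne_zero _ hu', fun Q => ?_⟩
  refine mul_left_cancel₀ (Int.natCast_ne_zero.2 hn) ?_
  have hE' := hE Q
  have hD' := hD Q
  rw [hres, Q.ord_mul (mul_ne_zero ((map_ne_zero _).2 hd0) (pow_ne_zero n hu')) hf',
    Q.ord_mul ((map_ne_zero _).2 hd0) (pow_ne_zero n hu'), Curve.ord_algebraMap,
    Curve.ord_pow] at hE'
  rw [AddSubgroupClass.coe_sub, Finsupp.sub_apply, Curve.ord_pow]
  push_cast at hE' hD' ⊢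
  linear_combination hE' - hD'

theorem exists_isResDiv (hn : n ≠ 0) (r : Fb)
    (hdvd : ∀ Q : Place (ResidueField A) Fb, (n : ℤ) ∣ 12 * Q.ord r) :
    ∃ D : Divisor.degZero (K := ResidueField A) (F := Fb),
      ∀ Q, (n : ℤ) * (D : Divisor (ResidueField A) Fb) Q = 12 * Q.ord r := by
  have hn' : (n : ℤ) ≠ 0 := Int.natCast_ne_zero.2 hn
  set D : Divisor (ResidueField A) Fb :=
    Finsupp.mapRange (fun z : ℤ => 12 * z / (n : ℤ)) (by simp) (Curve.divisorOf r)
  have hD : ∀ Q, (n : ℤ) * D Q = 12 * Q.ord r := fun Q => by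
    rw [Finsupp.mapRange_apply, Curve.divisorOf_apply, Int.mul_ediv_cancel' (hdvd Q)]
  have heq : (n : ℤ) • D = (12 : ℤ) • Curve.divisorOf r := by
    ext Q
    rw [Finsupp.smul_apply, Finsupp.smul_apply, smul_eq_mul, smul_eq_mul, hD,
      Curve.divisorOf_apply]
  have hdeg : Divisor.degree D = 0 := by
    have h := congrArg Divisor.degree heq
    rw [map_zsmul, map_zsmul, Curve.degree_divisorOf, smul_zero, smul_eq_mul] at h
    exact (mul_eq_zero.1 h).resolve_left hn'
  exact ⟨⟨D, Divisor.mem_degZero.2 hdeg⟩, hD⟩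

variable (T L)

/-- `res x i` is the class of `(12 / n)` times the divisor of the residue along `i`. -/
theorem exists_resClass (hq : q.Prime) (hss : ∀ g, T.swap (T.swap g) = g) (he : L.e = 1) (n : ℕ)
    [NeZero n] :
    ∃ res : (slopeHom T L n).ker →+ (Bool → Pic0 (ResidueField A) Fb),
      (∀ (x : (slopeHom T L n).ker) (f : F),
        Kummer T L n ((x : fixedClasses T L n) : Pic0 Qb F) f → ∀ i,
        ∃ D : Divisor.degZero (K := ResidueField A) (F := Fb), res x i = Pic0.mk D ∧
          ∀ Q, (n : ℤ) * (D : Divisor (ResidueField A) Fb) Q = 12 * Q.ord (normRes T L i f)) ∧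
      ∀ x : (slopeHom T L n).ker, res x = 0 →
        IsRed T L n 12 ((x : fixedClasses T L n) : Pic0 Qb F) := by
  classical
  have hn : n ≠ 0 := NeZero.ne n
  let pt : (slopeHom T L n).ker → Pic0 Qb F := fun x => ((x : fixedClasses T L n) : Pic0 Qb F)
  have hf : ∀ x, Kummer T L n (pt x) (exists_kummer x.1.2).choose :=
    fun x => (exists_kummer x.1.2).choose_spec
  have hD : ∀ (x : (slopeHom T L n).ker) (i : Bool),
      ∃ D, IsResDiv T L n i (exists_kummer x.1.2).choose D := fun x i => by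
    refine exists_isResDiv hn _ fun Q => ?_
    have hδ : (n : ℤ) ∣ delta T L (exists_kummer x.1.2).choose := by
      rw [← ZMod.intCast_zmod_eq_zero_iff_dvd, ← slopeHom_eq (hf x)]
      exact x.2
    have h := dvd_ord_normRes (c := 12) (m := 1) (by norm_num) (fun _ _ => one_dvd _) hq hn hss (hf x) hδ i Q
    rwa [he, Nat.cast_one, mul_one, Nat.cast_ofNat] at h
  choose D hDs using hD
  let res : (slopeHom T L n).ker → Bool → Pic0 (ResidueField A) Fb := fun x i => Pic0.mk (D x i)
  refine ⟨AddMonoidHom.mk' res fun x y => funext fun i => ?_, fun x g hg i => ?_, fun x hx => ?_⟩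
  · show Pic0.mk (D (x + y) i) = Pic0.mk (D x i) + Pic0.mk (D y i)
    rw [← Pic0.mk_add]
    exact IsResDiv.mk_eq hn ((hf x).mul (hf y)) (hf (x + y))
      ((hDs x i).add (hf x).ne_zero (hf x).fixed (hf y).ne_zero (hf y).fixed (hDs y i))
      (hDs (x + y) i)
  · have hgdvd : ∀ Q : Place (ResidueField A) Fb, (n : ℤ) ∣ 12 * Q.ord (normRes T L i g) := by
      intro Q
      have hδ : (n : ℤ) ∣ delta T L g := by
        rw [← ZMod.intCast_zmod_eq_zero_iff_dvd, ← slopeHom_eq hg]
        exact x.2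
      have h := dvd_ord_normRes (c := 12) (m := 1) (by norm_num) (fun _ _ => one_dvd _) hq hn hss hg hδ i Q
      rwa [he, Nat.cast_one, mul_one, Nat.cast_ofNat] at h
    obtain ⟨E, hE⟩ := exists_isResDiv hn _ hgdvd
    exact ⟨E, IsResDiv.mk_eq hn hg (hf x) hE (hDs x i), hE⟩
  · refine ⟨(exists_kummer x.1.2).choose, hf x, ?_, fun i => ?_⟩
    · rw [← ZMod.intCast_zmod_eq_zero_iff_dvd, ← slopeHom_eq (hf x)]
      exact x.2
    · have hi : Pic0.mk (D x i) = 0 := congrFun hx i
      obtain ⟨w, hw, hwD⟩ := (pic0Mk_eq_zero_iff _).1 hi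
      set r := normRes T L i (exists_kummer x.1.2).choose
      have hr : r ≠ 0 := normRes_ne_zero' (hf x).ne_zero (hf x).fixed i
      obtain ⟨c, hc, hce⟩ := exists_algebraMap_eq_of_forall_ord_eq_zero (K := ResidueField A)
        (f := r ^ 12 / w ^ n) (div_ne_zero (pow_ne_zero _ hr) (pow_ne_zero n hw)) fun Q => by
          rw [Curve.ord_div Q (pow_ne_zero _ hr) (pow_ne_zero n hw), Curve.ord_pow, Curve.ord_pow,
            ← hwD Q, hDs x i Q]
          simp [r]
      obtain ⟨e, he'⟩ := IsAlgClosed.exists_pow_nat_eq c (Nat.pos_of_ne_zero hn)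
      exact ⟨algebraMap _ Fb e * w, by
        rw [mul_pow, ← map_pow, he', hce, div_mul_cancel₀ _ (pow_ne_zero n hw)]⟩

end Fermat.Agent.TwoAdic.Removal.Residual
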