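import Fermat.Agent.BadPrime.Mazur.Local.Hecke
import Fermat.Agent.LevelP.X0.Main
import Fermat.Agent.LevelP.Ordinary.Residual
import Fermat.Agent.Reduction.Galois
import Fermat.Agent.Reduction.TorsionAux
import Fermat.Agent.Reduction.Inputs

/-!
# LT2 P8: Hecke translates at an auxiliary prime

If `g'` is the residual norm of `g`, `T_ℓ` of a lift of the class of `(12 / n) div g` reduces to
the class of `(12 / n) div g'`.

Owner: helper65.
-/

set_option autoImplicit false
set_option synthInstance.maxHeartbeats 400000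
set_option maxHeartbeats 800000
set_option linter.unusedSectionVars false

noncomputable section

open HahnSeries ModularCurve AlgebraicCurve IsLocalRing

namespace Fermat.Agent.TwoAdic.Removal.Residual

open Fermat.Agent.Curve Fermat.Agent.Reduction Fermat.Agent.BadPrime Fermat.Agent.LevelP
open Fermat.Agent.BadPrime.Mazur.Local
open Fermat.Agent.LevelP.TwoCompData

local notation "Qb" => AlgebraicClosure ℚ
local notation "Γℚ" => (AlgebraicClosure ℚ ≃ₐ[ℚ] AlgebraicClosure ℚ)

local instance : Algebra.IsAlgebraic ℚ Qb := AlgebraicClosure.isAlgebraic ℚ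

variable {A : ValuationSubring Qb} {q M : ℕ} [Fact q.Prime] [NeZero M]
  [IsAlgClosed (ResidueField A)] (hN : (q = 2 → 3 ∣ M) ∧ (q = 3 → 2 ∣ M)) (hqM : ¬ q ∣ M) (hA : A.LiesOverPrime q)

local notation "F" => modularFunctionFieldBar (M * q)
local notation "Fb" => modularFunctionFieldFullC (ResidueField A) M
local notation "T₀" => X0.twoCompData A q M hN hqM hA

variable {l : ℕ} [NeZero l]

include hN hqM hA in
/-- The residual function field of level `M` consists of residues. -/
theorem exists_hasGaussRed (h : Fb) :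
    ∃ f : F, HasGaussRed (residue A) (f : LaurentSeries Qb) (h : LaurentSeries (ResidueField A)) := by
  obtain ⟨f, -, hf⟩ := (T₀).exists_lift (fun _ => h)
  obtain ⟨hmem, hred⟩ := hf false
  refine ⟨f, ?_⟩
  have := X0.hasGaussRed_red A q M hqM hA false ⟨f, hmem⟩
  exact (show X0.red A q M hqM hA false ⟨f, hmem⟩ = h from hred) ▸ this

include hN hqM hA in
/-- Every nonzero residual function has a residual norm. -/
theorem exists_isResNorm (hl : l.Prime) (hlM : ¬ l ∣ M * q) (u : Aˣ)
    (hu : IsPrimitiveRoot (Units.map A.subtype.toMonoidHom u) l) {h : Fb} (hh : h ≠ 0) :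
    ∃ h' : Fb, h' ≠ 0 ∧ IsResNorm l (Units.map (residue A).toMonoidHom u)
      (h : LaurentSeries (ResidueField A)) (h' : LaurentSeries (ResidueField A)) := by
  obtain ⟨f, hf⟩ := exists_hasGaussRed hN hqM hA h
  have hh' : (h : LaurentSeries (ResidueField A)) ≠ 0 := fun h0 => hh (Subtype.ext h0)
  obtain ⟨g', hg', hn⟩ := exists_hasGaussRed_heckeNorm (N := M * q) hl hlM qbarToC u hu (f := f)
    hf hh'
  exact ⟨⟨g', X0.hasGaussRed_mem_fullC A q M hqM hA hg'⟩,
    fun h0 => hn.ne_zero hh' (congrArg Subtype.val h0), hn⟩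

include hN hqM hA in
/-- The chosen reduction of places is compatible with Gauss reductions on principal divisors. -/
theorem isGaussPlaceMap_placeReductionModL (hin : ReductionInputsModL A M) :
    IsGaussPlaceMap M A (placeReductionModL hin) := by
  obtain ⟨r, hdeg, hr⟩ := (gaussDataX0 M hqM A hA).exists_placeCompat
    (genusFF_le_modL M hqM A hA hN)
  intro f g hfg hg D hD Q
  have hdeg0 : Divisor.degree D = 0 := by
    have hf : f ≠ 0 := by
      rintro rfl
      exact hg (Subtype.ext (hfg.unique hasGaussRed_zero))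
    rw [show D = divisorOf f from Finsupp.ext hD]
    exact degree_divisorOf f
  rw [Reduction.mapDomain_eq_of_degree_eq_zero (fun P => one_le_deg P) weakRiemann
    (isPlaceReductionModL_placeReductionModL hin) (isPlaceReductionAlong_of_modGraph hdeg hr)
    (principalGeneratedByIntegral M hqM A hA) hdeg0]
  exact hr f g hfg hg D hD Q

include hN hqM hA in
/-- If `n · D = 12 div g` and `z` reduces to the class of `D`, then `T_ℓ z` reduces to the class of
`D'` with `n · D' = 12 div g'`, `g'` the residual norm of `g`. -/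
theorem reductionModL_heckeOperatorBar (hl : l.Prime) (hlM : ¬ l ∣ M * q) (u : Aˣ)
    (hu : IsPrimitiveRoot (Units.map A.subtype.toMonoidHom u) l) {n : ℕ} (hn : n ≠ 0) {g g' : Fb}
    (hg : g ≠ 0) (hgg : IsResNorm l (Units.map (residue A).toMonoidHom u)
      (g : LaurentSeries (ResidueField A)) (g' : LaurentSeries (ResidueField A)))
    {D D' : (Divisor.degZero : AddSubgroup (Divisor (ResidueField A) Fb))}
    (hD : ∀ Q, (n : ℤ) * (D : Divisor (ResidueField A) Fb) Q = 12 * Q.ord g)
    (hD' : ∀ Q, (n : ℤ) * (D' : Divisor (ResidueField A) Fb) Q = 12 * Q.ord g')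
    {z : JZero M} (hz : reductionModL A M z = Pic0.mk D) :
    reductionModL A M (heckeOperatorBar M ⟨l, hl⟩ z) = Pic0.mk D' := by
  classical
  have hin : ReductionInputsModL A M := Fermat.Agent.Reduction.reductionInputsModL M hqM A hA hN
  obtain ⟨E, rfl⟩ := Pic0.mk_surjective z
  rw [reductionModL_mk hin] at hz
  set r := placeReductionModL hin with hr
  obtain ⟨h, hh, hhE⟩ : ∃ h : Fb, h ≠ 0 ∧ ∀ Q,
      Finsupp.mapDomain r (E : Divisor Qb (modularFunctionFieldBar M)) Q -
        (D : Divisor (ResidueField A) Fb) Q = Q.ord h := by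
    obtain ⟨h, hh, hhD⟩ := (QuotientAddGroup.eq_iff_sub_mem.1 hz)
    exact ⟨h, hh, fun Q => by simpa using hhD Q⟩
  obtain ⟨h', hh', hhn⟩ := exists_isResNorm hN hqM hA hl hlM u hu hh
  have hg' : g' ≠ 0 := fun h0 => hgg.ne_zero (fun h1 => hg (Subtype.ext h1)) (congrArg Subtype.val h0)
  have hlM' : ¬ l ∣ M := fun hd => hlM (hd.mul_right q)
  have hdeg : Divisor.degree ((n : ℤ) • (E : Divisor Qb (modularFunctionFieldBar M))) = 0 := by
    rw [map_zsmul, Divisor.mem_degZero.1 E.2, smul_zero]
  have hord : ∀ (a b : Fb), a ≠ 0 → b ≠ 0 → ∀ Q : Place (ResidueField A) Fb,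
      Q.ord (a ^ 12 * b ^ n) = 12 * Q.ord a + n * Q.ord b := fun a b ha hb Q => by
    rw [Q.ord_mul (pow_ne_zero _ ha) (pow_ne_zero _ hb), Curve.ord_pow, Curve.ord_pow]
    push_cast
    ring
  have key := mapDomain_heckeDiv hqM hA (isGaussPlaceMap_placeReductionModL hN hqM hA hin) hl hlM'
    u hu hdeg (g := g ^ 12 * h ^ n) (g' := g' ^ 12 * h' ^ n)
    (mul_ne_zero (pow_ne_zero _ hg) (pow_ne_zero _ hh))
    (fun Q => by
      rw [← reductionDivAlong_apply, map_zsmul, reductionDivAlong_apply, Finsupp.smul_apply,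
        smul_eq_mul, hord g h hg hh, ← hD Q, ← hhE Q]
      ring)
    (by
      unfold IsResNorm at hgg hhn ⊢
      push_cast
      rw [map_mul, map_pow, map_pow, hgg, hhn, map_mul, map_pow, map_pow])
  rw [heckeOperatorBar_mk, reductionModL_mk hin]
  refine QuotientAddGroup.eq_iff_sub_mem.2 ⟨h', hh', fun Q => ?_⟩
  refine mul_left_cancel₀ (Int.natCast_ne_zero.2 hn) ?_
  have h1 := key Q
  rw [map_zsmul, ← reductionDivAlong_apply, map_zsmul, Finsupp.smul_apply, smul_eq_mul,
    reductionDivAlong_apply, hord g' h' hg' hh', ← hD' Q] at h1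
  rw [← hr] at h1
  simp only [map_sub, AddSubgroup.coe_subtype, coe_reductionDegZeroAlong, Finsupp.sub_apply, mul_sub]
  linear_combination h1

end Fermat.Agent.TwoAdic.Removal.Residual
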