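import Fermat.Agent.TwoAdic.Removal.Residues
import Fermat.Agent.TwoAdic.Removal.Residual.Class
import Fermat.Agent.TwoAdic.Removal.Residual.Hecke
import Fermat.Agent.BadPrime.Mazur.Local.Toric

/-!
# LT2 P8: the residual classes at an auxiliary prime

On the two-component data of `X₀(Mq)` with the maximal field unramified at `q` as level: the slope,
the two residual classes, and Frobenius where both vanish (`12` kills, hence `2 ^ 4` does on
`2`-power torsion).

Owner: helper65.
-/

set_option autoImplicit false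
set_option synthInstance.maxHeartbeats 400000
set_option maxHeartbeats 6000000
set_option linter.unusedSectionVars false

noncomputable section

open ModularCurve AlgebraicCurve IsLocalRing

namespace Fermat.Agent.TwoAdic.Removal

open Fermat.Agent.Curve Fermat.Agent.BadPrime Fermat.Agent.LevelP
open Fermat.Agent.BadPrime.Mazur.Local Fermat.Agent.TwoAdic.Torus
open Fermat.Agent.LevelP.TwoCompData

attribute [local irreducible] heckeNorm

local notation "Qb" => AlgebraicClosure ℚ
local notation "Γℚ" => (AlgebraicClosure ℚ ≃ₐ[ℚ] AlgebraicClosure ℚ)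

local instance : Algebra.IsAlgebraic ℚ Qb := AlgebraicClosure.isAlgebraic ℚ

/-- An element killed by `12` and by a power of `2` is killed by `4`. -/
theorem four_nsmul_eq_zero {G : Type*} [AddCommGroup G] {y : G} {n : ℕ} (h12 : 12 • y = 0)
    (h2 : 2 ^ n • y = 0) : 4 • y = 0 := by
  have h3 : addOrderOf (4 • y) ∣ 3 :=
    addOrderOf_dvd_of_nsmul_eq_zero (by rw [← mul_nsmul', show 3 * 4 = 12 from rfl, h12])
  have hp : addOrderOf (4 • y) ∣ 2 ^ n :=
    addOrderOf_dvd_of_nsmul_eq_zero (by rw [smul_comm, h2, smul_zero])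
  exact AddMonoid.addOrderOf_eq_one_iff.1
    (Nat.eq_one_of_dvd_coprimes ((by norm_num : Nat.Coprime 3 2).pow_right n) h3 hp)

theorem smul_swap_smul {q M : ℕ} [Fact q.Prime] [NeZero M] (σ : Γℚ) (x : JZero (M * q)) :
    σ • (SemilinearAut.ofAlgAut (X0.swap q M) • x) =
      SemilinearAut.ofAlgAut (X0.swap q M) • (σ • x) := by
  have h : X0.act q M σ * SemilinearAut.ofAlgAut (X0.swap q M) =
      SemilinearAut.ofAlgAut (X0.swap q M) * X0.act q M σ :=
    Subtype.ext (Prod.ext (RingEquiv.ext fun f => (X0.swap_act q M σ f).symm)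
      (RingEquiv.ext fun _ => rfl))
  show X0.act q M σ • (SemilinearAut.ofAlgAut (X0.swap q M) • x) =
    SemilinearAut.ofAlgAut (X0.swap q M) • (X0.act q M σ • x)
  rw [← mul_smul, h, mul_smul]

section Core

variable {q M : ℕ} [Fact q.Prime] [NeZero M] {A : ValuationSubring Qb}
  [IsAlgClosed (ResidueField A)]
  [IsFunctionField1 Qb (modularFunctionFieldBar (M * q))]
  [IsFunctionField1 (ResidueField A) (modularFunctionFieldFullC (ResidueField A) M)]
  {T : TwoCompData q A (modularFunctionFieldBar (M * q))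
    (modularFunctionFieldFullC (ResidueField A) M)}
  (hT : IsX0Data T) (hN : (q = 2 → 3 ∣ M) ∧ (q = 3 → 2 ∣ M)) (L : Level q A) {m : ℕ} [NeZero m]

include hT hN in
/-- The residual classes of a translate. -/
theorem resClass_hecke (res : (slopeHom T L m).ker →+
      (Bool → Pic0 (ResidueField A) (modularFunctionFieldFullC (ResidueField A) M)))
    (hres : ∀ (x : (slopeHom T L m).ker) (f : modularFunctionFieldBar (M * q)),
      Kummer T L m ((x : fixedClasses T L m) : JZero (M * q)) f → ∀ i,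
      ∃ D : Divisor.degZero (K := ResidueField A) (F := modularFunctionFieldFullC (ResidueField A) M),
        res x i = Pic0.mk D ∧ ∀ Q, (m : ℤ) * (D : Divisor (ResidueField A) _) Q =
          12 * Q.ord (normRes T L i f))
    (ℓ : Nat.Primes) (hℓ : ¬ (ℓ : ℕ) ∣ M * q) (x y : (slopeHom T L m).ker)
    (hy : ((y : fixedClasses T L m) : JZero (M * q)) =
      heckeOperatorBar (M * q) ℓ ((x : fixedClasses T L m) : JZero (M * q)))
    (i : Bool) (z : JZero M) (hz : reductionModL A M z = res x i) :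
    res y i = reductionModL A M (heckeOperatorBar M ℓ z) := by
  have : NeZero (ℓ : ℕ) := ⟨ℓ.2.ne_zero⟩
  obtain ⟨u, hu⟩ := exists_rootUnit A ℓ.2
  obtain ⟨f, hf⟩ := exists_kummer x.1.2
  have hk : Kummer T L m ((y : fixedClasses T L m) : JZero (M * q))
      (heckeNorm (M * q) (ℓ : ℕ) f) := by
    rw [hy]
    exact hT.kummer_heckeNorm ℓ.2 hf
  obtain ⟨D, hD, hDQ⟩ := hres x f hf i
  have hk' := hres y (heckeNorm (M * q) (ℓ : ℕ) f) hk
  have hk'' := hk' i
  rcases hk'' with ⟨D', hD', hD'Q⟩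
  have hn := (hT.heckeNorm_local ℓ.2 hℓ u hu hf.ne_zero hf.fixed i).2
  have h0 := normRes_ne_zero' hf.ne_zero hf.fixed i
  have hz' : reductionModL A M z = Pic0.mk D := hz.trans hD
  generalize normRes T L i f = g at hn h0 hDQ
  generalize normRes T L i (heckeNorm (M * q) (ℓ : ℕ) f) = g' at hn hD'Q
  have h := Residual.reductionModL_heckeOperatorBar (g := g) (g' := g') hN hT.not_dvd hT.liesOver
    ℓ.2 hℓ u hu (NeZero.ne m) h0 hn (D := D) (D' := D') hDQ hD'Q (z := z) hz'
  exact hD'.trans h.symm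

include hT hN in
/-- Frobenius on a class of order dividing `2 ^ n` with both residual classes zero. -/
theorem isRed_frobenius_two {n : ℕ} (hq2 : ¬ q ∣ 2 ^ n) {φ : Γℚ} (hφ : A.IsFrobeniusAt φ q)
    {x : JZero (M * q)} (hx0 : 2 ^ n • x = 0) (hx : IsRed T L (2 ^ n) 12 x) :
    (2 ^ 4) • (φ • x + q • (SemilinearAut.ofAlgAut (X0.swap q M) • x)) = 0 := by
  have hqM := hT.not_dvd
  have hw : IsALInvolution
      (X0.swap q M : modularFunctionFieldBar (M * q) →ₐ[Qb] modularFunctionFieldBar (M * q)) :=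
    ⟨(X0.swap_spec q M hqM).1, (X0.swap_spec q M hqM).2.1, (X0.swap_spec q M hqM).2.2⟩
  have h12 := isRed_frobenius T (w := (X0.swap q M : modularFunctionFieldBar (M * q) →ₐ[Qb] _))
    (fun f => by rw [hT.swap_eq]; rfl) hT.red_iff hT.liesOver hN hqM hw L hq2 hφ hx
  rw [show alAlgEquiv hw = X0.swap q M from AlgEquiv.ext fun _ => rfl] at h12
  have h2n : 2 ^ n • (φ • x + q • (SemilinearAut.ofAlgAut (X0.swap q M) • x)) = 0 := by
    have e1 : 2 ^ n • (φ • x) = 0 :=
      (map_nsmul (DistribSMul.toAddMonoidHom (JZero (M * q)) φ) (2 ^ n) x).symm.trans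
        (by rw [hx0, map_zero])
    have e2 : 2 ^ n • (SemilinearAut.ofAlgAut (X0.swap q M) • x) = 0 :=
      (map_nsmul (DistribSMul.toAddMonoidHom (JZero (M * q))
        (SemilinearAut.ofAlgAut (X0.swap q M))) (2 ^ n) x).symm.trans (by rw [hx0, map_zero])
    rw [nsmul_add, smul_comm (2 ^ n) q, e1, e2, smul_zero, add_zero]
  rw [show (2 : ℕ) ^ 4 = 4 * 4 from rfl, mul_nsmul', four_nsmul_eq_zero h12 h2n, smul_zero]

end Core

/-- The residual classes at an auxiliary prime. -/
theorem localResidues {q M : ℕ} [NeZero M] [NeZero (M * q)] (hq : q.Prime) (hq5 : 5 ≤ q)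
    (hqM : ¬ q ∣ M) : LocalResidues q M (2 ^ 4) := by
  have : Fact q.Prime := ⟨hq⟩
  refine ⟨DistribSMul.toAddMonoidHom (JZero (M * q)) (SemilinearAut.ofAlgAut (X0.swap q M)),
    fun σ x => smul_swap_smul σ x, fun n L _ _ hI A hA φ hφ => ?_⟩
  have := EC.isAlgClosed_residueField A
  have := X0.isFunctionField1_mul_prime q M
  have := X0.isFunctionField1_fullC_X0 A M
  have hN : (q = 2 → 3 ∣ M) ∧ (q = 3 → 2 ∣ M) :=
    ⟨fun h => absurd h (by omega), fun h => absurd h (by omega)⟩
  obtain ⟨T, hact, hswap, hred', -⟩ := X0.exists_twoCompData' A q M hN hqM hA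
  have hT : IsX0Data T := ⟨hqM, hA, hact, hswap, hred'⟩
  obtain ⟨L', hH, he⟩ : ∃ L' : Level q A, L'.H = A.inertiaSubgroupIn ℚ ∧ L'.e = 1 :=
    ⟨unramifiedLevel hq hA, rfl, rfl⟩
  have hle : fixedTorsionMod (M * q) (2 ^ n) L ≤ fixedClasses T L' (2 ^ n) :=
    fun x hx => ⟨hx.1, fun σ hσ => by rw [hact]; exact hx.2 σ (hI A hA σ (hH ▸ hσ))⟩
  have hqN : ¬ q ∣ 2 ^ n := fun h => by
    have := Nat.le_of_dvd two_pos (hq.dvd_of_dvd_pow h)
    omega
  obtain ⟨res₀, hres₀, hzero⟩ := Residual.exists_resClass T L' hq hT.swap_swap he (2 ^ n)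
  let slope : fixedTorsionMod (M * q) (2 ^ n) L →+ ZMod (2 ^ n) :=
    (slopeHom T L' (2 ^ n)).comp (AddSubgroup.inclusion hle)
  let j : slope.ker →+ (slopeHom T L' (2 ^ n)).ker :=
    ((AddSubgroup.inclusion hle).comp slope.ker.subtype).codRestrict _ fun x => x.2
  let res := (((Pi.evalAddMonoidHom (fun _ : Bool => Pic0 (ResidueField A)
      (modularFunctionFieldFullC (ResidueField A) M)) false).prod
    (Pi.evalAddMonoidHom _ true)).comp (res₀.comp j))
  refine ⟨slope, res, fun ℓ hℓ x y hy => ?_, fun ℓ hℓ x y hy z₁ z₂ hz₁ hz₂ => ?_, fun x hx => ?_⟩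
  · exact hT.slopeHom_hecke ℓ (fun h => hℓ (h.mul_left 2)) (AddSubgroup.inclusion hle x)
      (AddSubgroup.inclusion hle y) hy
  · have h := resClass_hecke hT hN L' res₀ hres₀ ℓ (fun h => hℓ (h.mul_left 2)) (j x) (j y) hy
    exact Prod.ext (h false z₁ hz₁) (h true z₂ hz₂)
  · exact isRed_frobenius_two hT hN L' hqN hφ x.1.2.1
      (hzero (j x) (funext fun i => Bool.rec (congrArg Prod.fst hx) (congrArg Prod.snd hx) i))

end Fermat.Agent.TwoAdic.Removal
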